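import Mathlib

/-!
# Route T, block `Rel`: the local computation at a totally ramified prime (pure Dedekind-domain
algebra; no number fields)

FROZEN STATEMENT (proved below; helper lemmas in `LocalAux`).

Math.  `R` Dedekind domain, `𝔏` a nonzero prime, `π ∈ 𝔏 \ 𝔏²` (a uniformiser at `𝔏`), `τ` a ring
automorphism acting trivially on `R/𝔏`, `τ π = κ π`, and `ε * τ β = β` with `β ≠ 0`.  Let
`v` be the multiplicity of `𝔏` in `(β)`.  Then `ε κ^v ≡ 1 (mod 𝔏)`.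
Proof: `(π) = 𝔏 𝔄`, `𝔄 ⊄ 𝔏`; `(β) = 𝔏^v 𝔅`, `𝔅 ⊄ 𝔏`.  Pick `w₂ ∈ 𝔄^v \ 𝔏` (`𝔏` prime).  Then
`β w₂ ∈ 𝔏^v 𝔄^v = (π^v)`, say `β w₂ = π^v w₁`, and `w₁ ∉ 𝔏` (otherwise `𝔏^(v+1) ∣ (β)(w₂)`, but the
multiplicity of `𝔏` in `(β)(w₂)` is `v + 0`).  Apply `τ`: `τβ · τw₂ = κ^v π^v τw₁`.  Using
`β = ε τβ`:  `π^v w₁ τw₂ = β w₂ τw₂ = ε τβ τw₂ w₂ = ε κ^v π^v τw₁ w₂`; cancel `π^v ≠ 0`:
`w₁ τw₂ = ε κ^v τw₁ w₂`.  Modulo `𝔏` (`τ w ≡ w`): `(1 - ε κ^v) w₁ w₂ ∈ 𝔏`, and `w₁ w₂ ∉ 𝔏`.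
-/

set_option autoImplicit false

namespace Fermat.Agent.S14.Thaine.Rel

open UniqueFactorizationMonoid

namespace LocalAux

/-- `β ∈ 𝔏 ^ v \ 𝔏 ^ (v + 1)` for `v` the multiplicity of `𝔏` in `(β)`. -/
theorem mem_pow_count {R : Type*} [CommRing R] [IsDedekindDomain R] (𝔏 : Ideal R)
    (h𝔏 : 𝔏.IsPrime) (h0 : 𝔏 ≠ ⊥) (β : R) (hβ : β ≠ 0) :
    β ∈ 𝔏 ^ (Multiset.count 𝔏 (normalizedFactors (Ideal.span {β}))) ∧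
      β ∉ 𝔏 ^ (Multiset.count 𝔏 (normalizedFactors (Ideal.span {β})) + 1) := by
  have hirr : Irreducible 𝔏 := (Ideal.prime_of_isPrime h0 h𝔏).irreducible
  have hne : Ideal.span {β} ≠ 0 := by
    rw [Ne, Ideal.zero_eq_bot, Ideal.span_singleton_eq_bot]
    exact hβ
  have hm := emultiplicity_eq_count_normalizedFactors hirr hne
  rw [normalize_eq, emultiplicity_eq_coe] at hm
  obtain ⟨h1, h2⟩ := hm
  rw [Ideal.dvd_iff_le, Ideal.span_singleton_le_iff_mem] at h1 h2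
  exact ⟨h1, h2⟩

/-- If `π ∈ 𝔏 \ 𝔏 ^ 2` and `x ∈ 𝔏 ^ n`, then `x * w = π ^ n * y` for some `w ∉ 𝔏`. -/
theorem exists_mul_eq {R : Type*} [CommRing R] [IsDedekindDomain R] (𝔏 : Ideal R)
    (h𝔏 : 𝔏.IsPrime) (π : R) (hπ : π ∈ 𝔏) (hπ2 : π ∉ 𝔏 ^ 2) (n : ℕ) (x : R)
    (hx : x ∈ 𝔏 ^ n) : ∃ w y : R, w ∉ 𝔏 ∧ x * w = π ^ n * y := by
  have hdvd : 𝔏 ∣ Ideal.span {π} :=
    Ideal.dvd_iff_le.mpr ((Ideal.span_singleton_le_iff_mem _).mpr hπ)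
  obtain ⟨𝔄, h𝔄⟩ := hdvd
  have hnot : ¬ 𝔄 ≤ 𝔏 := by
    intro hle
    apply hπ2
    have hle2 : Ideal.span {π} ≤ 𝔏 ^ 2 := by
      rw [h𝔄, pow_two]
      exact Ideal.mul_mono_right hle
    exact hle2 (Ideal.mem_span_singleton_self π)
  obtain ⟨a, ha, ha'⟩ := Set.not_subset.mp hnot
  have hmem : x * a ^ n ∈ Ideal.span {π ^ n} := by
    rw [← Ideal.span_singleton_pow, h𝔄, mul_pow]
    exact Ideal.mul_mem_mul hx (Ideal.pow_mem_pow ha n)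
  obtain ⟨y, hy⟩ := Ideal.mem_span_singleton'.mp hmem
  exact ⟨a ^ n, y, fun hmem' => ha' (h𝔏.mem_of_pow_mem n hmem'), by rw [← hy, mul_comm]⟩

end LocalAux

theorem local_relation {R : Type*} [CommRing R] [IsDedekindDomain R] (𝔏 : Ideal R)
    (h𝔏 : 𝔏.IsPrime) (h0 : 𝔏 ≠ ⊥) (τ : R ≃+* R) (hτ : ∀ x : R, τ x - x ∈ 𝔏)
    (π κ : R) (hπ : π ∈ 𝔏) (hπ2 : π ∉ 𝔏 ^ 2) (hκ : τ π = κ * π)
    (ε β : R) (hβ : β ≠ 0) (h : ε * τ β = β) :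
    ε * κ ^ (Multiset.count 𝔏 (normalizedFactors (Ideal.span {β}))) - 1 ∈ 𝔏 := by
  obtain ⟨hβv, hβv1⟩ := LocalAux.mem_pow_count 𝔏 h𝔏 h0 β hβ
  generalize Multiset.count 𝔏 (normalizedFactors (Ideal.span {β})) = v at hβv hβv1 ⊢
  obtain ⟨w₂, w₁, hw₂, hw⟩ := LocalAux.exists_mul_eq 𝔏 h𝔏 π hπ hπ2 v β hβv
  have hw₁ : w₁ ∉ 𝔏 := by
    intro hmem
    have h1 : β * w₂ ∈ 𝔏 ^ (v + 1) := by
      rw [hw, pow_succ]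
      exact Ideal.mul_mem_mul (Ideal.pow_mem_pow hπ v) hmem
    have := h𝔏
    rcases Ideal.IsPrime.mem_pow_mul 𝔏 h1 with h2 | h2
    · exact hβv1 h2
    · exact hw₂ h2
  have hπ0 : π ≠ 0 := by
    rintro rfl
    exact hπ2 (zero_mem _)
  have hτβ : τ β * τ w₂ = κ ^ v * π ^ v * τ w₁ := by
    rw [← map_mul, hw, map_mul, map_pow, hκ, mul_pow]
  have key : π ^ v * (w₁ * τ w₂) = π ^ v * (ε * κ ^ v * τ w₁ * w₂) := by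
    linear_combination (-(τ w₂)) * hw + (-(w₂ * τ w₂)) * h + (ε * w₂) * hτβ
  have key' : w₁ * τ w₂ = ε * κ ^ v * τ w₁ * w₂ := mul_left_cancel₀ (pow_ne_zero v hπ0) key
  have hexp : (ε * κ ^ v - 1) * (w₁ * w₂) =
      w₁ * (τ w₂ - w₂) - ε * κ ^ v * w₂ * (τ w₁ - w₁) := by
    linear_combination (-1 : R) * key'
  have hmem : (ε * κ ^ v - 1) * (w₁ * w₂) ∈ 𝔏 := by
    rw [hexp]
    exact 𝔏.sub_mem (𝔏.mul_mem_left _ (hτ w₂)) (𝔏.mul_mem_left _ (hτ w₁))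
  rcases h𝔏.mem_or_mem hmem with h1 | h1
  · exact h1
  · rcases h𝔏.mem_or_mem h1 with h2 | h2
    · exact absurd h2 hw₁
    · exact absurd h2 hw₂

end Fermat.Agent.S14.Thaine.Rel
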