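import Fermat.Agent.S14.Thaine.Rel.FieldM

/-!
# Route T, block `Rel`: the norm of the Hilbert-90 element generates `(β)^(q-1)`

FROZEN STATEMENT (replace the `sorry` only; add helper lemmas freely).
May use `finrank_eq` from `Rel/FieldM.lean` (sorried there, proved by another worker).

Math.  `Gal(M/K) = ⟨τ⟩` has `q - 1` elements (`finrank_eq`, `IsGalois.card_aut_eq_finrank`).
From `ε * τ β = β` with `ε` a unit: `τ β = ε⁻¹ β`, so every `σ = τ^k` maps `β` to a unit multiple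
of `β`.  In `M`: `N_{M/K}(β) = ∏_σ σ β` (`Algebra.norm_eq_prod_automorphisms`;
`Algebra.algebraMap_intNorm` relates `Algebra.intNorm (𝓞 K) (𝓞 M)` with `Algebra.norm K`), hence
`N(β) = unit · β^(q-1)` in `𝓞 M` and the two principal ideals agree.
-/

set_option autoImplicit false

namespace Fermat.Agent.S14.Thaine.Rel

open NumberField

variable {p : ℕ} [Fact p.Prime] {K : Type*} [Field K] [NumberField K]
  [IsCyclotomicExtension {p} ℚ K] {q : ℕ} [Fact q.Prime]
  {M : Type*} [Field M] [NumberField M] [Algebra K M] [IsCyclotomicExtension {q} K M]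

namespace NormBAux

/-- The automorphisms of `B` mapping `β` to an associate of `β` form a subgroup. -/
def assocSubgroup {A B : Type*} [CommRing A] [CommRing B] [Algebra A B] (β : B) :
    Subgroup (B ≃ₐ[A] B) where
  carrier := {ρ | Associated (ρ β) β}
  one_mem' := Associated.refl β
  mul_mem' := by
    intro ρ₁ ρ₂ h₁ h₂
    have h3 : Associated (ρ₁ (ρ₂ β)) (ρ₁ β) := h₂.map ρ₁
    exact h3.trans h₁
  inv_mem' := by
    intro ρ h
    have h3 : Associated (ρ⁻¹ (ρ β)) (ρ⁻¹ β) := h.map ρ⁻¹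
    have h4 : ρ⁻¹ (ρ β) = β := ρ.symm_apply_apply β
    rw [h4] at h3
    exact h3.symm

theorem associated_galRestrict (τ : M ≃ₐ[K] M)
    (hτ : ∀ σ : M ≃ₐ[K] M, σ ∈ Subgroup.zpowers τ) (ε β : 𝓞 M) (hε : IsUnit ε)
    (h : ε * galRestrict (𝓞 K) K M (𝓞 M) τ β = β) (σ : M ≃ₐ[K] M) :
    Associated (galRestrict (𝓞 K) K M (𝓞 M) σ β) β := by
  have hτmem : galRestrict (𝓞 K) K M (𝓞 M) τ ∈ assocSubgroup (A := 𝓞 K) β := by
    show Associated (galRestrict (𝓞 K) K M (𝓞 M) τ β) β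
    obtain ⟨u, rfl⟩ := hε
    exact ⟨u, by rw [mul_comm]; exact h⟩
  have hle : Subgroup.zpowers τ ≤
      (assocSubgroup (A := 𝓞 K) β).comap (galRestrict (𝓞 K) K M (𝓞 M)).toMonoidHom := by
    rw [Subgroup.zpowers_le]
    exact hτmem
  exact hle (hτ σ)

theorem algebraMap_intNorm_eq_prod [IsGalois K M] (β : 𝓞 M) :
    algebraMap (𝓞 K) (𝓞 M) (Algebra.intNorm (𝓞 K) (𝓞 M) β) =
      ∏ σ : M ≃ₐ[K] M, galRestrict (𝓞 K) K M (𝓞 M) σ β := by
  apply FaithfulSMul.algebraMap_injective (𝓞 M) M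
  rw [← IsScalarTower.algebraMap_apply, IsScalarTower.algebraMap_apply (𝓞 K) K M,
    Algebra.algebraMap_intNorm (L := M), Algebra.norm_eq_prod_automorphisms, map_prod]
  refine Finset.prod_congr rfl fun σ _ => ?_
  rw [algebraMap_galRestrict_apply]

end NormBAux

theorem span_intNorm_eq (hqp : q ≠ p) (τ : M ≃ₐ[K] M)
    (hτ : ∀ σ : M ≃ₐ[K] M, σ ∈ Subgroup.zpowers τ) (ε β : 𝓞 M) (hε : IsUnit ε)
    (h : ε * galRestrict (𝓞 K) K M (𝓞 M) τ β = β) :
    Ideal.span {algebraMap (𝓞 K) (𝓞 M) (Algebra.intNorm (𝓞 K) (𝓞 M) β)} =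
      Ideal.span {β} ^ (q - 1) := by
  have : IsGalois K M := IsCyclotomicExtension.isGalois {q} K M
  have hcard : Fintype.card (M ≃ₐ[K] M) = q - 1 := by
    rw [← Nat.card_eq_fintype_card, IsGalois.card_aut_eq_finrank, finrank_eq (p := p) K M hqp]
  rw [NormBAux.algebraMap_intNorm_eq_prod, Ideal.span_singleton_pow,
    Ideal.span_singleton_eq_span_singleton]
  have h1 := Associated.prod (Finset.univ : Finset (M ≃ₐ[K] M))
    (fun σ => galRestrict (𝓞 K) K M (𝓞 M) σ β) (fun _ => β)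
    (fun σ _ => NormBAux.associated_galRestrict τ hτ ε β hε h σ)
  rw [Finset.prod_const, Finset.card_univ, hcard] at h1
  exact h1

end Fermat.Agent.S14.Thaine.Rel
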