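import Fermat.Agent.S14.Thaine.Rel.Ram

/-!
# Route T, block `Rel`: the primes of `M = K(ζ_q)` above `q`

FROZEN STATEMENTS (replace the `sorry`s only; add helper lemmas freely).

Let `𝔏` be a prime of `𝓞 M` containing `q`, `π = 1 - η` (`η` a primitive `q`-th root of unity).
* `π ∈ 𝔏`:  `q = Φ_q(1) = ∏_{0<c<q} (1 - η^c)` and `1 - η^c` is a multiple of... (each
  `1 - η^c` is associated to `1 - η`: `1 - η^c = (1 - η)(1 + η + ... + η^(c-1))` and
  `1 - η = 1 - (η^c)^(c')` for `c c' ≡ 1 mod q`); so `q ∈ 𝔏` forces `π ∈ 𝔏`.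
* `π ∉ 𝔏²`:  `q = unit · π^(q-1)`, the multiplicity of `𝔏` in `(q)` is the ramification index of
  `𝔏` over `ℤ`, which is `q - 1` (`M = ℚ(ζ_{pq})`, Mathlib `IsCyclotomicExtension.Rat.ramificationIdx_eq`
  with `n = q^(0+1) * p`; or `ramificationIdx_of_mem` + tower).  Hence the multiplicity of `𝔏` in
  `(π)` is `1`.
* every `σ ∈ Gal(M/K)` acts trivially on `𝓞 M / 𝔏`:  the ramification index `q - 1` equals
  `[M : K] = #Gal(M/K)` (`finrank_eq`), so the inertia group of `𝔏` is the whole Galois group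
  (Mathlib `Mathlib/NumberTheory/RamificationInertia/Galois.lean`: `Ideal.card_inertia_eq_ramificationIdxIn`,
  `Ideal.ramificationIdxIn_eq_ramificationIdx`; `Ideal.inertia`, `AddSubgroup.inertia` membership
  unfolds to `∀ x, σ • x - x ∈ 𝔏`).  [Alternative: `𝓞 M = 𝓞 K[η]`-type argument.]
-/

set_option autoImplicit false

namespace Fermat.Agent.S14.Thaine.Rel

open NumberField

variable {p : ℕ} [Fact p.Prime] {K : Type*} [Field K] [NumberField K]
  [IsCyclotomicExtension {p} ℚ K] {q : ℕ} [Fact q.Prime]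
  {M : Type*} [Field M] [NumberField M] [Algebra K M] [IsCyclotomicExtension {q} K M]

namespace RamQAux

open IsDedekindDomain

/-- The integral valuation of a unit is `1`. -/
theorem intValuation_unit {R : Type*} [CommRing R] [IsDedekindDomain R]
    (w : HeightOneSpectrum R) (u : Rˣ) : w.intValuation (u : R) = 1 := by
  have h1 : w.intValuation (u : R) * w.intValuation ((u⁻¹ : Rˣ) : R) = 1 := by
    rw [← map_mul, Units.mul_inv, map_one]
  refine le_antisymm (w.intValuation_le_one _) ?_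
  calc (1 : WithZero (Multiplicative ℤ))
      = w.intValuation (u : R) * w.intValuation ((u⁻¹ : Rˣ) : R) := h1.symm
    _ ≤ w.intValuation (u : R) * 1 := mul_le_mul' le_rfl (w.intValuation_le_one _)
    _ = w.intValuation (u : R) := mul_one _

/-- If `x ^ n = exp (-1) ^ n` with `n ≠ 0` in the value group, then `x = exp (-1)`. -/
theorem eq_exp_of_pow_eq (x : WithZero (Multiplicative ℤ)) (n : ℕ) (hn : n ≠ 0)
    (h : x ^ n = WithZero.exp (-1 : ℤ) ^ n) : x = WithZero.exp (-1 : ℤ) := by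
  have hx0 : x ≠ 0 := by
    rintro rfl
    rw [zero_pow hn] at h
    exact (pow_ne_zero n WithZero.exp_ne_zero) h.symm
  rw [← WithZero.exp_log hx0] at h ⊢
  rw [← WithZero.exp_nsmul, ← WithZero.exp_nsmul, WithZero.exp_inj, nsmul_eq_mul,
    nsmul_eq_mul] at h
  have hn' : (n : ℤ) ≠ 0 := by exact_mod_cast hn
  rw [mul_right_inj' hn'] at h
  rw [h]

end RamQAux

theorem one_sub_mem {η : M} (hη : IsPrimitiveRoot η q) (𝔏 : Ideal (𝓞 M)) (h𝔏 : 𝔏.IsPrime)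
    (hq : ((q : ℕ) : 𝓞 M) ∈ 𝔏) : (1 - hη.toInteger : 𝓞 M) ∈ 𝔏 := by
  have hq' : q.Prime := Fact.out
  obtain ⟨r, hr⟩ := exists_add_pow_prime_eq hq' (1 - hη.toInteger : 𝓞 M) hη.toInteger
  have h1 : hη.toInteger ^ q = 1 := hη.toInteger_isPrimitiveRoot.pow_eq_one
  rw [sub_add_cancel, one_pow, h1] at hr
  have h2 : (1 - hη.toInteger : 𝓞 M) ^ q =
      -((q : 𝓞 M) * ((1 - hη.toInteger) * hη.toInteger * r)) := by
    linear_combination -hr
  refine h𝔏.mem_of_pow_mem q ?_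
  rw [h2]
  exact neg_mem (𝔏.mul_mem_right _ hq)

theorem one_sub_not_mem_sq {p : ℕ} [Fact p.Prime] (K : Type*) [Field K] [NumberField K]
    [IsCyclotomicExtension {p} ℚ K] {q : ℕ} [Fact q.Prime] {M : Type*} [Field M] [NumberField M]
    [Algebra K M] [IsCyclotomicExtension {q} K M] (hqp : q ≠ p) {η : M} (hη : IsPrimitiveRoot η q)
    (𝔏 : Ideal (𝓞 M)) (h𝔏 : 𝔏.IsPrime) (hq : ((q : ℕ) : 𝓞 M) ∈ 𝔏) :
    (1 - hη.toInteger : 𝓞 M) ∉ 𝔏 ^ 2 := by
  have hq' : q.Prime := Fact.out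
  have hp' : p.Prime := Fact.out
  have : IsCyclotomicExtension {p * q} ℚ M := isCyclotomicExtension_mul K M hqp
  have hqZ : (Ideal.span {(q : ℤ)}) ≠ ⊥ := by
    rw [Ne, Ideal.span_singleton_eq_bot]
    exact_mod_cast hq'.ne_zero
  have hqM : ((q : ℕ) : 𝓞 M) ≠ 0 := Nat.cast_ne_zero.mpr hq'.ne_zero
  have h𝔏0 : 𝔏 ≠ ⊥ := by
    rintro rfl
    exact hqM (by simpa using hq)
  -- `𝔏` lies over `(q)`
  have hlo : 𝔏.LiesOver (Ideal.span {(q : ℤ)}) := by
    rw [Ideal.liesOver_iff]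
    refine Ideal.IsMaximal.eq_of_le (Int.ideal_span_isMaximal_of_prime q) Ideal.IsPrime.ne_top' ?_
    rw [Ideal.span_singleton_le_iff_mem, Ideal.under_def, Ideal.mem_comap, map_natCast]
    exact hq
  -- ramification index over `ℤ`
  have he : 𝔏.ramificationIdx ℤ = q - 1 := by
    have h := IsCyclotomicExtension.Rat.ramificationIdx_eq (p * q) (m := p) (p := q) (k := 0) M 𝔏
      (by ring) (by rw [Nat.prime_dvd_prime_iff_eq hq' hp']; exact hqp)
    simpa using h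
  have he' : (Ideal.span {(q : ℤ)}).ramificationIdx' 𝔏 = q - 1 := by
    rw [Ideal.ramificationIdx'_eq_ramificationIdx _ _ hqZ, he]
  -- valuations
  obtain ⟨v, hv⟩ : ∃ v : IsDedekindDomain.HeightOneSpectrum ℤ, v.asIdeal = Ideal.span {(q : ℤ)} :=
    ⟨⟨Ideal.span {(q : ℤ)}, (Int.ideal_span_isMaximal_of_prime q).isPrime, hqZ⟩, rfl⟩
  obtain ⟨w, hw⟩ : ∃ w : IsDedekindDomain.HeightOneSpectrum (𝓞 M), w.asIdeal = 𝔏 :=
    ⟨⟨𝔏, h𝔏, h𝔏0⟩, rfl⟩
  have : w.asIdeal.LiesOver v.asIdeal := by rw [hv, hw]; exact hlo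
  have hval := IsDedekindDomain.HeightOneSpectrum.intValuation_liesOver v w (q : ℤ)
  have hvq : v.intValuation (q : ℤ) = WithZero.exp (-1 : ℤ) :=
    v.intValuation_singleton (by exact_mod_cast hq'.ne_zero) hv
  have hidx : v.asIdeal.ramificationIdx' w.asIdeal = q - 1 := by rw [hv, hw]; exact he'
  rw [hvq, hidx, map_natCast] at hval
  obtain ⟨u, hu⟩ := IsCyclotomicExtension.Rat.associated_zeta_sub_one_pow_prime q hη
  have h1 : w.intValuation (hη.toInteger - 1) ^ (q - 1) = WithZero.exp (-1 : ℤ) ^ (q - 1) := by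
    rw [hval, ← hu, map_mul, map_pow, RamQAux.intValuation_unit, mul_one]
  have h2 : w.intValuation (hη.toInteger - 1) = WithZero.exp (-1 : ℤ) :=
    RamQAux.eq_exp_of_pow_eq _ (q - 1) (Nat.sub_ne_zero_of_lt hq'.one_lt) h1
  intro hmem
  rw [← hw, ← w.intValuation_le_pow_iff_mem, Valuation.map_sub_swap, h2,
    WithZero.exp_le_exp] at hmem
  norm_num at hmem

theorem galRestrict_sub_mem (hqp : q ≠ p) (𝔏 : Ideal (𝓞 M)) (h𝔏 : 𝔏.IsPrime)
    (hq : ((q : ℕ) : 𝓞 M) ∈ 𝔏) (σ : M ≃ₐ[K] M) (x : 𝓞 M) :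
    galRestrict (𝓞 K) K M (𝓞 M) σ x - x ∈ 𝔏 := by
  have hq' : q.Prime := Fact.out
  have : IsGalois K M := IsCyclotomicExtension.isGalois {q} K M
  have hqK : ((q : ℕ) : 𝓞 K) ≠ 0 := Nat.cast_ne_zero.mpr hq'.ne_zero
  have h0 : 𝔏.under (𝓞 K) ≠ ⊥ := by
    intro h
    have hmem : ((q : ℕ) : 𝓞 K) ∈ 𝔏.under (𝓞 K) := by
      rw [Ideal.under_def, Ideal.mem_comap, map_natCast]
      exact hq
    rw [h] at hmem
    exact hqK (by simpa using hmem)
  obtain ⟨v, hv⟩ : ∃ v : IsDedekindDomain.HeightOneSpectrum (𝓞 K),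
      v.asIdeal = 𝔏.under (𝓞 K) := ⟨⟨𝔏.under (𝓞 K), inferInstance, h0⟩, rfl⟩
  have : 𝔏.LiesOver v.asIdeal := ⟨hv⟩
  have h2 : v.asIdeal.ramificationIdxIn (𝓞 M) = 𝔏.ramificationIdx (𝓞 K) :=
    Ideal.ramificationIdxIn_eq_ramificationIdx v.asIdeal 𝔏 (M ≃ₐ[K] M)
  have h3 : Nat.card (𝔏.inertia (M ≃ₐ[K] M)) = v.asIdeal.ramificationIdxIn (𝓞 M) :=
    Ideal.card_inertia_eq_ramificationIdxIn v.asIdeal 𝔏
  have h4 : Nat.card (𝔏.inertia (M ≃ₐ[K] M)) = Nat.card (M ≃ₐ[K] M) := by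
    rw [h3, h2, ramificationIdx_of_mem (K := K) hqp 𝔏 h𝔏 hq, IsGalois.card_aut_eq_finrank,
      finrank_eq K M hqp]
  have h5 : 𝔏.inertia (M ≃ₐ[K] M) = ⊤ := Subgroup.eq_top_of_card_eq _ h4
  have h6 : σ ∈ 𝔏.inertia (M ≃ₐ[K] M) := h5 ▸ Subgroup.mem_top σ
  have h7 : σ • x - x ∈ 𝔏 := h6 x
  have h8 : galRestrict (𝓞 K) K M (𝓞 M) σ x = σ • x := by
    apply RingOfIntegers.ext
    exact algebraMap_galRestrict_apply (𝓞 K) σ x
  rw [h8]
  exact h7

end Fermat.Agent.S14.Thaine.Rel
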