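import Fermat.Agent.S14.Thaine.Rel.Hilbert
import Fermat.Agent.S14.Thaine.Rel.RamQ
import Fermat.Agent.S14.Thaine.Rel.Local
import Fermat.Agent.S14.Thaine.Rel.NormB

/-!
# Route T, block `Rel`: assembly of the field side (owner helper14)

From the leaves (`exists_hilbert`, ramification of `M/K`, `local_relation`, `span_intNorm_eq`) we
get `b = N_{M/K}(β) ∈ 𝓞 K` and `g` with
* `p ∣ ord_Q(b)` for every prime `Q ∌ q` of `K`;
* `g ^ ord_Q(b) * thaineU ≡ 1 (mod Q)` for every prime `Q ∋ q` of `K`.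
-/

set_option autoImplicit false

namespace Fermat.Agent.S14.Thaine.Rel

open NumberField UniqueFactorizationMonoid

variable {p : ℕ} [Fact p.Prime] {K : Type*} [Field K] [NumberField K]
  [IsCyclotomicExtension {p} ℚ K] {q : ℕ} [Fact q.Prime]

section Abstract

variable {M : Type*} [Field M] [NumberField M] [Algebra K M] [IsCyclotomicExtension {q} K M]

/-- There is a prime of `𝓞 M` above any nonzero prime of `𝓞 K`. -/
theorem exists_prime_over (Q : Ideal (𝓞 K)) (hQ : Q.IsPrime) (hQ0 : Q ≠ ⊥) :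
    ∃ 𝔏 : Ideal (𝓞 M), 𝔏.IsPrime ∧ 𝔏 ≠ ⊥ ∧ 𝔏.under (𝓞 K) = Q := by
  have hmax : Q.IsMaximal := hQ.isMaximal hQ0
  obtain ⟨𝔏, h𝔏max, h𝔏over⟩ := Ideal.exists_maximal_ideal_liesOver_of_isIntegral (S := 𝓞 M) Q
  refine ⟨𝔏, h𝔏max.isPrime, ?_, (h𝔏over.over).symm⟩
  intro hbot
  apply hQ0
  have h1 : Q = 𝔏.under (𝓞 K) := h𝔏over.over
  rw [h1, hbot]
  exact Ideal.under_bot (𝓞 K) (𝓞 M)

/-- A natural number lies in a prime of `𝓞 M` iff it lies in the prime of `𝓞 K` below. -/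
theorem natCast_mem_under_iff (𝔏 : Ideal (𝓞 M)) (n : ℕ) :
    ((n : ℕ) : 𝓞 K) ∈ 𝔏.under (𝓞 K) ↔ ((n : ℕ) : 𝓞 M) ∈ 𝔏 := by
  rw [Ideal.under_def, Ideal.mem_comap, map_natCast]

theorem witness_aux (hqp : q ≠ p) (hq1 : p ∣ q - 1) {η : M} (hη : IsPrimitiveRoot η q) :
    ∃ (b : 𝓞 K) (g : ℕ), b ≠ 0 ∧ Nat.Coprime g q ∧
      (∀ Q : Ideal (𝓞 K), Q.IsPrime → Q ≠ ⊥ → ((q : ℕ) : 𝓞 K) ∉ Q →
        p ∣ Multiset.count Q (normalizedFactors (Ideal.span {b}))) ∧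
      (∀ Q : Ideal (𝓞 K), Q.IsPrime → ((q : ℕ) : 𝓞 K) ∈ Q →
        (g : 𝓞 K) ^ Multiset.count Q (normalizedFactors (Ideal.span {b})) * thaineU p K - 1
          ∈ Q) := by
  classical
  have hqprime : q.Prime := Fact.out
  obtain ⟨τ, g, β, hβ, hτ, hτη, hH⟩ := exists_hilbert (p := p) (K := K) hqp hq1 hη
  set ε : 𝓞 M := twistU p K hη.toInteger with hεdef
  have hε : IsUnit ε := isUnit_twistU hqp hq1 hη
  have hspan := span_intNorm_eq (p := p) hqp τ hτ ε β hε hH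
  set b : 𝓞 K := Algebra.intNorm (𝓞 K) (𝓞 M) β with hbdef
  have hβspan : Ideal.span {β} ≠ (⊥ : Ideal (𝓞 M)) := by
    rwa [Ne, Ideal.span_singleton_eq_bot]
  have hb : b ≠ 0 := by
    intro hb0
    rw [hb0, map_zero] at hspan
    have h1 : Ideal.span {β} ^ (q - 1) = (⊥ : Ideal (𝓞 M)) := by
      rw [← hspan]
      simp
    exact hβspan (pow_eq_zero_iff (Nat.sub_ne_zero_of_lt hqprime.one_lt) |>.mp h1)
  -- multiplicities in `M`
  have hcount : ∀ 𝔏 : Ideal (𝓞 M), 𝔏.IsPrime → 𝔏 ≠ ⊥ →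
      𝔏.ramificationIdx (𝓞 K) *
        Multiset.count (𝔏.under (𝓞 K)) (normalizedFactors (Ideal.span {b})) =
      (q - 1) * Multiset.count 𝔏 (normalizedFactors (Ideal.span {β})) := by
    intro 𝔏 h𝔏 h0
    rw [← count_map_span 𝔏 h𝔏 h0 b hb, hspan, normalizedFactors_pow, Multiset.count_nsmul]
  -- `g` is prime to `q`
  have hg : Nat.Coprime g q := by
    rw [Nat.coprime_comm, hqprime.coprime_iff_not_dvd]
    intro hdvd
    have h1 : η ^ g = 1 := by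
      obtain ⟨k, rfl⟩ := hdvd
      rw [pow_mul, hη.pow_eq_one, one_pow]
    rw [h1] at hτη
    have h2 : η = 1 := by
      have := τ.injective (hτη.trans (map_one τ).symm)
      exact this
    exact hη.ne_one hqprime.one_lt h2
  refine ⟨b, g, hb, hg, ?_, ?_⟩
  · intro Q hQ hQ0 hqQ
    obtain ⟨𝔏, h𝔏, h𝔏0, h𝔏Q⟩ := exists_prime_over (M := M) Q hQ hQ0
    have hq𝔏 : ((q : ℕ) : 𝓞 M) ∉ 𝔏 := by
      rw [← natCast_mem_under_iff (K := K), h𝔏Q]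
      exact hqQ
    have h1 := hcount 𝔏 h𝔏 h𝔏0
    rw [ramificationIdx_of_not_mem hqp 𝔏 h𝔏 h𝔏0 hq𝔏, one_mul, h𝔏Q] at h1
    rw [h1]
    exact Dvd.dvd.mul_right hq1 _
  · intro Q hQ hqQ
    have hQ0 : Q ≠ ⊥ := by
      rintro rfl
      rw [Ideal.mem_bot, Nat.cast_eq_zero] at hqQ
      exact hqprime.ne_zero hqQ
    obtain ⟨𝔏, h𝔏, h𝔏0, h𝔏Q⟩ := exists_prime_over (M := M) Q hQ hQ0
    have hq𝔏 : ((q : ℕ) : 𝓞 M) ∈ 𝔏 := by
      rw [← natCast_mem_under_iff (K := K), h𝔏Q]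
      exact hqQ
    have h1 := hcount 𝔏 h𝔏 h𝔏0
    rw [ramificationIdx_of_mem hqp 𝔏 h𝔏 hq𝔏, h𝔏Q] at h1
    have hq1pos : 0 < q - 1 := Nat.sub_pos_of_lt hqprime.one_lt
    have hv : Multiset.count Q (normalizedFactors (Ideal.span {b})) =
        Multiset.count 𝔏 (normalizedFactors (Ideal.span {β})) :=
      Nat.eq_of_mul_eq_mul_left hq1pos h1
    rw [hv]
    set v := Multiset.count 𝔏 (normalizedFactors (Ideal.span {β})) with hvdef
    -- the local relation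
    set ηI : 𝓞 M := hη.toInteger with hηI
    set τ' : 𝓞 M ≃+* 𝓞 M := (galRestrict (𝓞 K) K M (𝓞 M) τ : 𝓞 M ≃ₐ[𝓞 K] 𝓞 M).toRingEquiv
      with hτ'
    have hτ'app : ∀ x : 𝓞 M, τ' x = galRestrict (𝓞 K) K M (𝓞 M) τ x := fun x => rfl
    have hτηI : τ' ηI = ηI ^ g := by
      apply RingOfIntegers.coe_injective
      rw [hτ'app]
      have h2 := algebraMap_galRestrict_apply (𝓞 K) τ ηI
      have h3 : algebraMap (𝓞 M) M ηI = η := rfl
      rw [h2, map_pow, h3, hτη]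
    set κ : 𝓞 M := ∑ i ∈ Finset.range g, ηI ^ i with hκdef
    have hκ : τ' (1 - ηI) = κ * (1 - ηI) := by
      rw [map_sub, map_one, hτηI, hκdef, mul_comm, mul_neg_geom_sum]
    have hloc := local_relation 𝔏 h𝔏 h𝔏0 τ'
      (fun x => by rw [hτ'app]; exact galRestrict_sub_mem (p := p) hqp 𝔏 h𝔏 hq𝔏 τ x)
      (1 - ηI) κ (one_sub_mem hη 𝔏 h𝔏 hq𝔏) (one_sub_not_mem_sq K hqp hη 𝔏 h𝔏 hq𝔏)
      hκ ε β hβ (by rw [hτ'app]; exact hH)
    rw [← hvdef] at hloc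
    -- reduce `κ` and `ε` modulo `𝔏`
    have hπ𝔏 : (1 - ηI) ∈ 𝔏 := one_sub_mem hη 𝔏 h𝔏 hq𝔏
    have hκg : κ - (g : 𝓞 M) ∈ 𝔏 := by
      have h3 : κ - (g : 𝓞 M) = ∑ i ∈ Finset.range g, (ηI ^ i - 1) := by
        rw [hκdef, Finset.sum_sub_distrib]
        simp
      rw [h3]
      refine 𝔏.sum_mem fun i _ => ?_
      have h4 : ηI ^ i - 1 = -((1 - ηI) * ∑ j ∈ Finset.range i, ηI ^ j) := by
        rw [mul_neg_geom_sum]
        ring
      rw [h4]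
      exact 𝔏.neg_mem (𝔏.mul_mem_right _ hπ𝔏)
    have hεu : ε - algebraMap (𝓞 K) (𝓞 M) (thaineU p K) ∈ 𝔏 := by
      have h5 := twistU_sub_mem (p := p) (K := K) hqp hη
      have h6 : Ideal.span {(1 - hη.toInteger : 𝓞 M)} ≤ 𝔏 := by
        rw [Ideal.span_singleton_le_iff_mem]
        exact hπ𝔏
      exact h6 h5
    have hκpow : κ ^ v - (g : 𝓞 M) ^ v ∈ 𝔏 := by
      have h7 : κ - (g : 𝓞 M) ∣ κ ^ v - (g : 𝓞 M) ^ v := sub_dvd_pow_sub_pow _ _ _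
      obtain ⟨c, hc⟩ := h7
      rw [hc]
      exact 𝔏.mul_mem_right _ hκg
    have hfin : algebraMap (𝓞 K) (𝓞 M) ((g : 𝓞 K) ^ v * thaineU p K - 1) ∈ 𝔏 := by
      have h8 : algebraMap (𝓞 K) (𝓞 M) ((g : 𝓞 K) ^ v * thaineU p K - 1) =
          (ε * κ ^ v - 1) - (ε - algebraMap (𝓞 K) (𝓞 M) (thaineU p K)) * κ ^ v
            - algebraMap (𝓞 K) (𝓞 M) (thaineU p K) * (κ ^ v - (g : 𝓞 M) ^ v) := by
        rw [map_sub, map_mul, map_pow, map_natCast, map_one]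
        ring
      rw [h8]
      exact 𝔏.sub_mem (𝔏.sub_mem hloc (𝔏.mul_mem_right _ hεu)) (𝔏.mul_mem_left _ hκpow)
    rw [← h𝔏Q, Ideal.under_def, Ideal.mem_comap]
    exact hfin

end Abstract

/-- The field side of Thaine's relation, in "count" form. -/
theorem exists_witness (K : Type*) [Field K] [NumberField K] [IsCyclotomicExtension {p} ℚ K]
    (q : ℕ) [Fact q.Prime] (hqp : q ≠ p) (hq1 : p ∣ q - 1) :
    ∃ (b : 𝓞 K) (g : ℕ), b ≠ 0 ∧ Nat.Coprime g q ∧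
      (∀ Q : Ideal (𝓞 K), Q.IsPrime → Q ≠ ⊥ → ((q : ℕ) : 𝓞 K) ∉ Q →
        p ∣ Multiset.count Q (normalizedFactors (Ideal.span {b}))) ∧
      (∀ Q : Ideal (𝓞 K), Q.IsPrime → ((q : ℕ) : 𝓞 K) ∈ Q →
        (g : 𝓞 K) ^ Multiset.count Q (normalizedFactors (Ideal.span {b})) * thaineU p K - 1
          ∈ Q) :=
  witness_aux (M := CyclotomicField q K) hqp hq1 (IsCyclotomicExtension.zeta_spec q K _)

end Fermat.Agent.S14.Thaine.Rel
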