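import Fermat.Agent.S14.Thaine.Defs

/-!
# Route T, block `Rel` (Thaine's relation; owner helper14): shared definitions

Setting of the block: `K = ℚ(ζ_p)`, `q` a prime with `q ≠ p`, `q ≡ 1 (mod p)`, `M = K(ζ_q)`
(any number field `M` with `[Algebra K M] [IsCyclotomicExtension {q} K M]`), `η : M` a primitive
`q`-th root of unity.  `M/K` is cyclic of degree `q - 1`, totally ramified at the primes above `q`
and unramified elsewhere.
-/

set_option autoImplicit false

namespace Fermat.Agent.S14.Thaine.Rel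

open NumberField

variable (p : ℕ) [Fact p.Prime] (K : Type*) [Field K] [NumberField K]
  [IsCyclotomicExtension {p} ℚ K] {M : Type*} [Field M] [NumberField M] [Algebra K M]

/-- The twisted Thaine element `ε(η) = ∏_{0<j<p} (1 - ζ^j η)^{e_j}` of `𝓞 M`, for `η : 𝓞 M`
(same exponents `e_j = ((j : ZMod p)^(p-3)).val` as `thaineU`; `twistU 1 = thaineU`). -/
noncomputable def twistU (η : 𝓞 M) : 𝓞 M :=
  ∏ j ∈ Finset.Ioo 0 p,
    (1 - algebraMap (𝓞 K) (𝓞 M) (zetaInt p K ^ j) * η) ^ (((j : ZMod p)) ^ (p - 3)).val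

end Fermat.Agent.S14.Thaine.Rel
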