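import Fermat.Agent.S14.Thaine.Rel.Defs

/-!
# Route T, block `Rel`: the field `M = K(ζ_q)` — degree and the norm-one element

FROZEN STATEMENTS (replace the `sorry`s only; add helper lemmas freely).
-/

set_option autoImplicit false

namespace Fermat.Agent.S14.Thaine.Rel

open NumberField

variable {p : ℕ} [Fact p.Prime] (K : Type*) [Field K] [NumberField K]
  [IsCyclotomicExtension {p} ℚ K] {q : ℕ} [Fact q.Prime]
  (M : Type*) [Field M] [NumberField M] [Algebra K M] [IsCyclotomicExtension {q} K M]

/-- `M = ℚ(ζ_{pq})`.  (Signature fully explicit: the statement does not mention `K`, so the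
section variables would not be included automatically.) -/
theorem isCyclotomicExtension_mul {p : ℕ} [Fact p.Prime] (K : Type*) [Field K] [NumberField K]
    [IsCyclotomicExtension {p} ℚ K] {q : ℕ} [Fact q.Prime] (M : Type*) [Field M] [NumberField M]
    [Algebra K M] [IsCyclotomicExtension {q} K M] (hqp : q ≠ p) :
    IsCyclotomicExtension {p * q} ℚ M := by
  have hp : p.Prime := Fact.out
  have hq : q.Prime := Fact.out
  have : NeZero p := ⟨hp.ne_zero⟩
  have : NeZero q := ⟨hq.ne_zero⟩
  have hpq : p * q ≠ 0 := mul_ne_zero hp.ne_zero hq.ne_zero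
  have hcop : Nat.Coprime p q := (Nat.coprime_primes hp hq).mpr (Ne.symm hqp)
  have h1 : IsCyclotomicExtension ({p} ∪ {q}) ℚ M :=
    IsCyclotomicExtension.trans {p} {q} ℚ K M (algebraMap K M).injective
  have hζ : IsPrimitiveRoot (algebraMap K M (IsCyclotomicExtension.zeta p ℚ K)) p :=
    (IsCyclotomicExtension.zeta_spec p ℚ K).map_of_injective (algebraMap K M).injective
  have hη : IsPrimitiveRoot (IsCyclotomicExtension.zeta q K M) q :=
    IsCyclotomicExtension.zeta_spec q K M
  have hprim : IsPrimitiveRoot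
      (algebraMap K M (IsCyclotomicExtension.zeta p ℚ K) * IsCyclotomicExtension.zeta q K M)
      (p * q) := by
    rw [IsPrimitiveRoot.iff_orderOf, (Commute.all _ _).orderOf_mul_eq_mul_orderOf_of_coprime
      (by rw [← hζ.eq_orderOf, ← hη.eq_orderOf]; exact hcop), ← hζ.eq_orderOf, ← hη.eq_orderOf]
  have h2 : IsCyclotomicExtension (({p} ∪ {q}) ∪ {p * q}) ℚ M :=
    IsCyclotomicExtension.union_of_isPrimitiveRoot ({p} ∪ {q}) ℚ M hprim
  have hset : (({p} ∪ {q}) ∪ {p * q} : Set ℕ) = (({p * q} ∪ {p}) ∪ {q} : Set ℕ) := by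
    ext x
    simp only [Set.mem_union, Set.mem_singleton_iff]
    tauto
  rw [hset] at h2
  have h3 : IsCyclotomicExtension ({p * q} ∪ {p}) ℚ M :=
    (IsCyclotomicExtension.iff_union_of_dvd (S := {p * q} ∪ {p}) (n := q) ℚ M
      ⟨p * q, Or.inl (Set.mem_singleton _), hpq, Dvd.intro_left p rfl⟩).mpr h2
  exact (IsCyclotomicExtension.iff_union_of_dvd (S := {p * q}) (n := p) ℚ M
      ⟨p * q, Set.mem_singleton _, hpq, Dvd.intro q rfl⟩).mpr h3

/-- `[M : K] = q - 1`. -/
theorem finrank_eq (hqp : q ≠ p) : Module.finrank K M = q - 1 := by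
  have hp : p.Prime := Fact.out
  have hq : q.Prime := Fact.out
  have : NeZero p := ⟨hp.ne_zero⟩
  have : NeZero (p * q) := ⟨mul_ne_zero hp.ne_zero hq.ne_zero⟩
  have hcop : Nat.Coprime p q := (Nat.coprime_primes hp hq).mpr (Ne.symm hqp)
  have hM : IsCyclotomicExtension {p * q} ℚ M := isCyclotomicExtension_mul K M hqp
  have h1 : Module.finrank ℚ M = (p - 1) * (q - 1) := by
    rw [IsCyclotomicExtension.Rat.finrank (p * q) M, Nat.totient_mul hcop,
      Nat.totient_prime hp, Nat.totient_prime hq]
  have h2 : Module.finrank ℚ K = p - 1 := by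
    rw [IsCyclotomicExtension.Rat.finrank p K, Nat.totient_prime hp]
  have h3 := Module.finrank_mul_finrank ℚ K M
  rw [h1, h2] at h3
  exact Nat.eq_of_mul_eq_mul_left (Nat.sub_pos_of_lt hp.one_lt) h3

/-- The `q`-th cyclotomic polynomial stays irreducible over `K = ℚ(ζ_p)`. -/
theorem irreducible_cyclotomic (hqp : q ≠ p) : Irreducible (Polynomial.cyclotomic q K) := by
  have hq : q.Prime := Fact.out
  have : NeZero q := ⟨hq.ne_zero⟩
  have hfin : Module.finrank K (CyclotomicField q K) = q - 1 :=
    finrank_eq K (CyclotomicField q K) hqp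
  have hη : IsPrimitiveRoot (IsCyclotomicExtension.zeta q K (CyclotomicField q K)) q :=
    IsCyclotomicExtension.zeta_spec q K (CyclotomicField q K)
  have hint : IsIntegral K (IsCyclotomicExtension.zeta q K (CyclotomicField q K)) :=
    (hη.isIntegral hq.pos).tower_top
  have hdeg : (minpoly K (IsCyclotomicExtension.zeta q K (CyclotomicField q K))).natDegree
      = q - 1 := by
    rw [← hfin, (hη.powerBasis K).finrank, IsPrimitiveRoot.powerBasis_dim]
  have hdvd : minpoly K (IsCyclotomicExtension.zeta q K (CyclotomicField q K)) ∣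
      Polynomial.cyclotomic q K := by
    apply minpoly.dvd
    have : NeZero ((q : ℕ) : CyclotomicField q K) := ⟨by exact_mod_cast hq.ne_zero⟩
    rwa [Polynomial.aeval_def, Polynomial.eval₂_eq_eval_map, Polynomial.map_cyclotomic,
      ← Polynomial.IsRoot.def, Polynomial.isRoot_cyclotomic_iff]
  have heq : Polynomial.cyclotomic q K =
      minpoly K (IsCyclotomicExtension.zeta q K (CyclotomicField q K)) :=
    Polynomial.eq_of_monic_of_dvd_of_natDegree_le (minpoly.monic hint)
      (Polynomial.cyclotomic.monic q K) hdvd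
      (by rw [hdeg, Polynomial.natDegree_cyclotomic, Nat.totient_prime hq])
  rw [heq]
  exact minpoly.irreducible hint

end Fermat.Agent.S14.Thaine.Rel
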