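import Fermat.Agent.S14.Thaine.Rel.NormOne

/-!
# Route T, block `Rel`: Hilbert 90 for the twisted Thaine element

FROZEN STATEMENT (proved below; helper lemmas in `HilbertAux`).

`Gal(M/K)` is cyclic (it embeds into `(ZMod q)ˣ`); let `τ` be a generator, `τ η = η ^ g`.
Since `N_{M/K}(twistU) = 1` (`norm_twistU`), the integral form of Hilbert's Theorem 90
(Mathlib `groupCohomology.exists_mul_galRestrict_of_norm_eq_one`, applied with
`A = 𝓞 K`, `B = 𝓞 M`) gives `β : 𝓞 M`, `β ≠ 0`, with `twistU * τ β = β`.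

The Mathlib lemma is only available for fields in universe `0`, so a universe-polymorphic
version of Hilbert 90 for cyclic extensions is proved here by hand (`HilbertAux`), using
Dedekind's independence of characters.
-/

set_option autoImplicit false

namespace Fermat.Agent.S14.Thaine.Rel

open NumberField

namespace HilbertAux

open scoped nonZeroDivisors

variable {F E : Type*} [Field F] [Field E] [Algebra F E] [FiniteDimensional F E] [IsGalois F E]

/-- For a generator `τ` of the Galois group, the norm is the product over the powers of `τ`. -/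
theorem prod_pow_eq_norm (τ : E ≃ₐ[F] E) (hτ : ∀ σ : E ≃ₐ[F] E, σ ∈ Subgroup.zpowers τ) (x : E) :
    ∏ j ∈ Finset.range (orderOf τ), (τ ^ j) x = algebraMap F E (Algebra.norm F x) := by
  classical
  rw [Algebra.norm_eq_prod_automorphisms]
  have himg : (Finset.range (orderOf τ)).image (fun j => τ ^ j) = Finset.univ := by
    rw [Finset.eq_univ_iff_forall]
    intro σ
    have h1 : σ ∈ Submonoid.powers τ := mem_powers_iff_mem_zpowers.2 (hτ σ)
    obtain ⟨k, rfl⟩ := h1
    rw [Finset.mem_image]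
    exact ⟨k % orderOf τ, Finset.mem_range.2 (Nat.mod_lt _ (orderOf_pos τ)), pow_mod_orderOf τ k⟩
  rw [← himg, Finset.prod_image]
  intro i hi j hj hij
  exact pow_injOn_Iio_orderOf (by simpa using hi) (by simpa using hj) hij

/-- Hilbert's Theorem 90 for a finite cyclic Galois extension (universe polymorphic). -/
theorem exists_mul_eq (τ : E ≃ₐ[F] E) (hτ : ∀ σ : E ≃ₐ[F] E, σ ∈ Subgroup.zpowers τ) {x : E}
    (hx : Algebra.norm F x = 1) : ∃ y : E, y ≠ 0 ∧ x * τ y = y := by
  classical
  have hnpos : 0 < orderOf τ := orderOf_pos τ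
  obtain ⟨u, hu⟩ : ∃ u : ℕ → E, ∀ i, u i = ∏ j ∈ Finset.range i, (τ ^ j) x := ⟨_, fun _ => rfl⟩
  have hu0 : u 0 = 1 := by rw [hu, Finset.prod_range_zero]
  have hun : u (orderOf τ) = 1 := by rw [hu, prod_pow_eq_norm τ hτ x, hx, map_one]
  have husucc : ∀ i, u (i + 1) = x * τ (u i) := by
    intro i
    rw [hu, hu, Finset.prod_range_succ', map_prod, pow_zero, AlgEquiv.one_apply, mul_comm]
    congr 1
    apply Finset.prod_congr rfl
    intro j _
    rw [pow_succ', AlgEquiv.mul_apply]
  have hex : ∃ θ : E, ∑ i ∈ Finset.range (orderOf τ), u i * (τ ^ i) θ ≠ 0 := by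
    by_contra hcon
    push Not at hcon
    have hinj : Function.Injective
        (fun i : Fin (orderOf τ) => (((τ ^ (i : ℕ) : E ≃ₐ[F] E) : E →+* E) : E →* E)) := by
      intro i j hij
      have hpow : τ ^ (i : ℕ) = τ ^ (j : ℕ) := by
        ext y
        exact DFunLike.congr_fun hij y
      exact Fin.ext (pow_injOn_Iio_orderOf i.2 j.2 hpow)
    have hli := (linearIndependent_monoidHom E E).comp _ hinj
    have h0 := Fintype.linearIndependent_iff.1 hli (fun i => u i) (by
      funext θ
      simp only [Finset.sum_apply, Pi.smul_apply, Function.comp_apply, smul_eq_mul,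
        Pi.zero_apply]
      rw [← hcon θ, ← Fin.sum_univ_eq_sum_range (fun i => u i * (τ ^ i) θ) (orderOf τ)]
      rfl) ⟨0, hnpos⟩
    rw [hu0] at h0
    exact one_ne_zero h0
  obtain ⟨θ, hθ⟩ := hex
  refine ⟨_, hθ, ?_⟩
  rw [map_sum, Finset.mul_sum]
  have h1 : ∀ i ∈ Finset.range (orderOf τ),
      x * τ (u i * (τ ^ i) θ) = u (i + 1) * (τ ^ (i + 1)) θ := by
    intro i _
    rw [map_mul, ← mul_assoc, ← husucc, pow_succ', AlgEquiv.mul_apply]
  rw [Finset.sum_congr rfl h1]
  have h2 := Finset.sum_range_succ (fun i => u i * (τ ^ i) θ) (orderOf τ)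
  have h3 := Finset.sum_range_succ' (fun i => u i * (τ ^ i) θ) (orderOf τ)
  rw [h2] at h3
  simp only [hu0, hun, pow_orderOf_eq_one, pow_zero, AlgEquiv.one_apply, one_mul] at h3
  exact (add_right_cancel h3).symm

/-- Integral form of Hilbert's Theorem 90 (universe polymorphic version of Mathlib's
`groupCohomology.exists_mul_galRestrict_of_norm_eq_one`). -/
theorem exists_mul_galRestrict {A B : Type*} [CommRing A] [CommRing B] [Algebra A B]
    [Algebra A E] [Algebra A F] [Algebra B E] [IsScalarTower A B E] [IsScalarTower A F E]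
    [IsFractionRing A F] [IsDomain A] [IsIntegralClosure B A E]
    (τ : E ≃ₐ[F] E) (hτ : ∀ σ : E ≃ₐ[F] E, σ ∈ Subgroup.zpowers τ) {η : B}
    (hη : Algebra.norm F (algebraMap B E η) = 1) :
    ∃ ε : B, ε ≠ 0 ∧ η * galRestrict A F E B τ ε = ε := by
  have : Module.IsTorsionFree A E := by
    rw [Module.isTorsionFree_iff_algebraMap_injective, IsScalarTower.algebraMap_eq A F E]
    exact (algebraMap F E).injective.comp (IsFractionRing.injective A F)
  have : IsLocalization (Algebra.algebraMapSubmonoid B A⁰) E :=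
    IsIntegralClosure.isLocalization A F E B
  obtain ⟨y, hy0, hy⟩ := exists_mul_eq τ hτ hη
  obtain ⟨a, b, h⟩ := IsLocalization.exists_mk'_eq (Algebra.algebraMapSubmonoid B A⁰) y
  obtain ⟨t, ht, ht'⟩ := b.prop
  have hta : t • y = algebraMap B E a := by
    rw [← h, Algebra.smul_def, IsScalarTower.algebraMap_apply A B E, ht',
      IsLocalization.mk'_spec']
  refine ⟨a, ?_, ?_⟩
  · rintro rfl
    apply hy0
    rw [← h, IsLocalization.mk'_zero]
  · apply IsIntegralClosure.algebraMap_injective B A E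
    have hτt : τ (t • y) = t • τ y := by
      rw [Algebra.smul_def, Algebra.smul_def, map_mul, IsScalarTower.algebraMap_apply A F E,
        τ.commutes]
    rw [map_mul, algebraMap_galRestrict_apply, ← hta, hτt, mul_smul_comm, hy]

end HilbertAux

variable {p : ℕ} [Fact p.Prime] {K : Type*} [Field K] [NumberField K]
  [IsCyclotomicExtension {p} ℚ K] {q : ℕ} [Fact q.Prime]
  {M : Type*} [Field M] [NumberField M] [Algebra K M] [IsCyclotomicExtension {q} K M]

theorem exists_hilbert (hqp : q ≠ p) (hq1 : p ∣ q - 1) {η : M} (hη : IsPrimitiveRoot η q) :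
    ∃ (τ : M ≃ₐ[K] M) (g : ℕ) (β : 𝓞 M), β ≠ 0 ∧
      (∀ σ : M ≃ₐ[K] M, σ ∈ Subgroup.zpowers τ) ∧ τ η = η ^ g ∧
      twistU p K hη.toInteger * galRestrict (𝓞 K) K M (𝓞 M) τ β = β := by
  have : NeZero q := ⟨(Fact.out : q.Prime).ne_zero⟩
  have : IsGalois K M := IsCyclotomicExtension.isGalois {q} K M
  have : IsCyclic (ZMod q)ˣ := ZMod.isCyclic_units_prime Fact.out
  have : IsCyclic (M ≃ₐ[K] M) :=
    isCyclic_of_injective (hη.autToPow K) (hη.autToPow_injective K)
  obtain ⟨τ, hτ⟩ := IsCyclic.exists_generator (α := M ≃ₐ[K] M)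
  have hτη : (τ η) ^ q = 1 := by rw [← map_pow, hη.pow_eq_one, map_one]
  obtain ⟨g, -, hg⟩ := hη.eq_pow_of_pow_eq_one hτη
  obtain ⟨β, hβ0, hβ⟩ := HilbertAux.exists_mul_galRestrict (A := 𝓞 K) (B := 𝓞 M) τ hτ
    (norm_twistU hqp hq1 hη)
  exact ⟨τ, g, β, hβ0, hτ, hg.symm, hβ⟩

end Fermat.Agent.S14.Thaine.Rel
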