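import Fermat.Agent.S14.Thaine.Rel.FieldM

/-!
# Route T, block `Rel`: the twisted Thaine element has relative norm one

FROZEN STATEMENTS (replace the `sorry`s only; add helper lemmas freely).
May use `finrank_eq`, `irreducible_cyclotomic` from `Rel/FieldM.lean` (sorried there, proved by
another worker).
-/

set_option autoImplicit false

namespace Fermat.Agent.S14.Thaine.Rel

open NumberField

variable {p : ℕ} [Fact p.Prime] {K : Type*} [Field K] [NumberField K]
  [IsCyclotomicExtension {p} ℚ K] {q : ℕ} [Fact q.Prime]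
  {M : Type*} [Field M] [NumberField M] [Algebra K M] [IsCyclotomicExtension {q} K M]

namespace NormOneAux

/-- `N(c - θ) = minpoly_θ(c)` for a power basis generated by `θ`. -/
theorem norm_algebraMap_sub_gen {R S : Type*} [CommRing R] [CommRing S] [Algebra R S]
    (pb : PowerBasis R S) (c : R) :
    Algebra.norm R (algebraMap R S c - pb.gen) = (minpoly R pb.gen).eval c := by
  classical
  rw [Algebra.norm_eq_matrix_det pb.basis, ← charpoly_leftMulMatrix pb, Matrix.eval_charpoly,
    map_sub, AlgHom.commutes]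
  rfl

/-- `Φ_q(c) = 1` if `c ^ p = 1`, `c ≠ 1`, `q ≡ 1 (mod p)`, `q` prime. -/
theorem eval_cyclotomic_eq_one {F : Type*} [Field F] {p q : ℕ} [Fact q.Prime] (hq1 : p ∣ q - 1)
    {c : F} (hc : c ^ p = 1) (hc1 : c ≠ 1) : (Polynomial.cyclotomic q F).eval c = 1 := by
  rw [Polynomial.cyclotomic_prime, Polynomial.eval_finsetSum]
  simp only [Polynomial.eval_pow, Polynomial.eval_X]
  have hsub : c - 1 ≠ 0 := sub_ne_zero.mpr hc1
  apply mul_right_cancel₀ hsub
  rw [geom_sum_mul, one_mul]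
  have hq : q = q - 1 + 1 := by
    have := (Fact.out : q.Prime).pos
    omega
  obtain ⟨k, hk⟩ := hq1
  rw [hq, pow_succ, hk, pow_mul, hc, one_pow, one_mul]

end NormOneAux

/-- `N_{M/K}(1 - a η) = 1` for a `p`-th root of unity `a ≠ 1` of `K`, when `q ≡ 1 (mod p)`:
`N(1 - aη) = N(a) · N(a⁻¹ - η) = a^(q-1) · Φ_q(a⁻¹) = 1`. -/
theorem norm_one_sub_mul (hqp : q ≠ p) (hq1 : p ∣ q - 1) {η : M} (hη : IsPrimitiveRoot η q)
    {a : K} (ha : a ^ p = 1) (ha1 : a ≠ 1) :
    Algebra.norm K (1 - algebraMap K M a * η) = 1 := by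
  have hirr : Irreducible (Polynomial.cyclotomic q K) := irreducible_cyclotomic K hqp
  have hp0 : p ≠ 0 := (Fact.out : p.Prime).ne_zero
  have ha0 : a ≠ 0 := by
    rintro rfl
    rw [zero_pow hp0] at ha
    exact zero_ne_one ha
  have hfin : Module.finrank K M = q - 1 := finrank_eq K M hqp
  have hnorm_a : Algebra.norm K (algebraMap K M a) = 1 := by
    rw [Algebra.norm_algebraMap, hfin]
    obtain ⟨k, hk⟩ := hq1
    rw [hk, pow_mul, ha, one_pow]
  have hcyc : (Polynomial.cyclotomic q K).eval a⁻¹ = 1 := by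
    apply NormOneAux.eval_cyclotomic_eq_one hq1
    · rw [inv_pow, ha, inv_one]
    · intro h1
      exact ha1 (inv_eq_one.mp h1)
  have hN : Algebra.norm K (algebraMap K M a⁻¹ - η) = 1 := by
    have h1 := NormOneAux.norm_algebraMap_sub_gen (hη.powerBasis K) a⁻¹
    rw [hη.powerBasis_gen K, ← hη.minpoly_eq_cyclotomic_of_irreducible hirr, hcyc] at h1
    exact h1
  have hfac : 1 - algebraMap K M a * η = algebraMap K M a * (algebraMap K M a⁻¹ - η) := by
    rw [mul_sub, ← map_mul, mul_inv_cancel₀ ha0, map_one]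
  rw [hfac, map_mul, hnorm_a, hN, one_mul]

/-- The twisted Thaine element has relative norm `1`. -/
theorem norm_twistU (hqp : q ≠ p) (hq1 : p ∣ q - 1) {η : M} (hη : IsPrimitiveRoot η q) :
    Algebra.norm K (algebraMap (𝓞 M) M (twistU p K hη.toInteger)) = 1 := by
  unfold twistU
  rw [map_prod, map_prod]
  apply Finset.prod_eq_one
  intro j hj
  rw [map_pow, map_pow]
  have hζ : IsPrimitiveRoot (IsCyclotomicExtension.zeta p ℚ K) p :=
    IsCyclotomicExtension.zeta_spec p ℚ K
  have hcoe : algebraMap (𝓞 M) M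
      (1 - algebraMap (𝓞 K) (𝓞 M) (zetaInt p K ^ j) * hη.toInteger) =
      1 - algebraMap K M (IsCyclotomicExtension.zeta p ℚ K ^ j) * η := by
    rw [map_sub, map_one, map_mul, ← IsScalarTower.algebraMap_apply (𝓞 K) (𝓞 M) M,
      IsScalarTower.algebraMap_apply (𝓞 K) K M, map_pow]
    rfl
  have hj' := Finset.mem_Ioo.mp hj
  have hpow : (IsCyclotomicExtension.zeta p ℚ K ^ j) ^ p = 1 := by
    rw [← pow_mul, mul_comm, pow_mul, hζ.pow_eq_one, one_pow]
  have hne : IsCyclotomicExtension.zeta p ℚ K ^ j ≠ 1 :=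
    hζ.pow_ne_one_of_pos_of_lt (Nat.pos_iff_ne_zero.mp hj'.1) hj'.2
  rw [hcoe, norm_one_sub_mul hqp hq1 hη hpow hne, one_pow]

/-- The twisted Thaine element is a unit of `𝓞 M`. -/
theorem isUnit_twistU (hqp : q ≠ p) (hq1 : p ∣ q - 1) {η : M} (hη : IsPrimitiveRoot η q) :
    IsUnit (twistU p K hη.toInteger : 𝓞 M) := by
  rw [← RingOfIntegers.isUnit_norm K]
  have h1 : RingOfIntegers.norm K (twistU p K hη.toInteger) = 1 := by
    apply RingOfIntegers.ext
    rw [RingOfIntegers.coe_norm, RingOfIntegers.coe_eq_algebraMap, norm_twistU hqp hq1 hη]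
    exact (map_one (algebraMap (𝓞 K) K)).symm
  rw [h1]
  exact isUnit_one

/-- Modulo `1 - η` the twisted Thaine element is the Thaine element of `K`. -/
theorem twistU_sub_mem (hqp : q ≠ p) {η : M} (hη : IsPrimitiveRoot η q) :
    twistU p K hη.toInteger - algebraMap (𝓞 K) (𝓞 M) (thaineU p K) ∈
      Ideal.span {(1 - hη.toInteger : 𝓞 M)} := by
  rw [← Ideal.Quotient.eq]
  have hη1 : Ideal.Quotient.mk (Ideal.span {(1 - hη.toInteger : 𝓞 M)}) hη.toInteger = 1 := by
    rw [← map_one (Ideal.Quotient.mk (Ideal.span {(1 - hη.toInteger : 𝓞 M)})), eq_comm,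
      Ideal.Quotient.eq]
    exact Ideal.subset_span rfl
  unfold twistU thaineU
  simp only [map_prod, map_pow, map_sub, map_one, map_mul, hη1, mul_one]

end Fermat.Agent.S14.Thaine.Rel
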