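import Fermat.Agent.S14.Thaine.Rel.FieldM

/-!
# Route T, block `Rel`: ramification indices of `M = K(ζ_q)` over `K = ℚ(ζ_p)`

FROZEN STATEMENTS (replace the `sorry`s only; add helper lemmas freely).

Math: `M = ℚ(ζ_{pq})` (`isCyclotomicExtension_mul`).  Mathlib
(`Mathlib/NumberTheory/NumberField/Cyclotomic/Ideal.lean`, namespace `IsCyclotomicExtension.Rat`:
`ramificationIdx_eq`, `ramificationIdx_eq_of_not_dvd`, `ramificationIdx_eq_of_prime`) gives the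
ramification index over `ℤ` of every prime of `ℚ(ζ_n)`:  in `M`: `q - 1` above `q`, `p - 1`
above `p`, `1` elsewhere;  in `K`: `p - 1` above `p`, `1` elsewhere.  Multiplicativity in the tower
`ℤ ⊆ 𝓞 K ⊆ 𝓞 M` (`Ideal.ramificationIdx_tower`) gives the relative indices.
The last lemma converts ramification indices into multiplicities of principal ideals
(Mathlib: `Ideal.IsDedekindDomain.emultiplicity_map_eq_ramificationIdx'_mul`,
`Ideal.ramificationIdx'_eq_ramificationIdx`, `emultiplicity_eq_count_normalizedFactors`,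
`Ideal.map_span`).
-/

set_option autoImplicit false

namespace Fermat.Agent.S14.Thaine.Rel

open NumberField UniqueFactorizationMonoid

variable {p : ℕ} [Fact p.Prime] {K : Type*} [Field K] [NumberField K]
  [IsCyclotomicExtension {p} ℚ K] {q : ℕ} [Fact q.Prime]
  {M : Type*} [Field M] [NumberField M] [Algebra K M] [IsCyclotomicExtension {q} K M]

namespace RamAux

/-- Membership of a natural number in a prime above `ℓ`. -/
theorem natCast_mem_iff {F : Type*} [Field F] [NumberField F] (𝔏 : Ideal (𝓞 F)) (ℓ : ℕ)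
    [h𝔏 : 𝔏.LiesOver (Ideal.span {(ℓ : ℤ)})] (d : ℕ) : ((d : ℕ) : 𝓞 F) ∈ 𝔏 ↔ ℓ ∣ d := by
  have h1 : ((d : ℕ) : 𝓞 F) = algebraMap ℤ (𝓞 F) (d : ℤ) := by simp
  rw [h1, ← Ideal.mem_comap, ← Ideal.under_def, ← Ideal.LiesOver.over (p := Ideal.span {(ℓ : ℤ)}),
    Ideal.mem_span_singleton, Int.natCast_dvd_natCast]

/-- The tower formula `e(𝔏|ℤ) = e(𝔏 ∩ 𝓞 K|ℤ) · e(𝔏|𝓞 K)`. -/
theorem tower {K : Type*} [Field K] [NumberField K] {M : Type*} [Field M] [NumberField M]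
    [Algebra K M] (𝔏 : Ideal (𝓞 M)) :
    𝔏.ramificationIdx ℤ = (𝔏.under (𝓞 K)).ramificationIdx ℤ * 𝔏.ramificationIdx (𝓞 K) := by
  have : 𝔏.LiesOver (𝔏.under (𝓞 K)) := Ideal.over_under 𝔏
  exact Ideal.ramificationIdx_tower (R := ℤ) (𝔏.under (𝓞 K)) 𝔏

/-- Relative ramification index of a prime above `q`. -/
theorem ramIdx_of_eq (hqp : q ≠ p) (𝔏 : Ideal (𝓞 M)) [𝔏.IsPrime]
    [𝔏.LiesOver (Ideal.span {(q : ℤ)})] : 𝔏.ramificationIdx (𝓞 K) = q - 1 := by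
  have : IsCyclotomicExtension {p * q} ℚ M := isCyclotomicExtension_mul K M hqp
  have : 𝔏.LiesOver (𝔏.under (𝓞 K)) := Ideal.over_under 𝔏
  have : (𝔏.under (𝓞 K)).IsPrime := Ideal.IsPrime.under (𝓞 K) 𝔏
  have : (𝔏.under (𝓞 K)).LiesOver (Ideal.span {(q : ℤ)}) :=
    Ideal.LiesOver.tower_bot 𝔏 (𝔏.under (𝓞 K)) (Ideal.span {(q : ℤ)})
  have hq : q.Prime := Fact.out
  have hp : p.Prime := Fact.out
  have hndvd : ¬ q ∣ p := fun h => hqp ((Nat.prime_dvd_prime_iff_eq hq hp).mp h)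
  have h1 : 𝔏.ramificationIdx ℤ = q ^ 0 * (q - 1) :=
    IsCyclotomicExtension.Rat.ramificationIdx_eq (p * q) (m := p) (p := q) (k := 0) M 𝔏
      (by ring) hndvd
  have h2 : (𝔏.under (𝓞 K)).ramificationIdx ℤ = 1 :=
    IsCyclotomicExtension.Rat.ramificationIdx_eq_of_not_dvd (m := p) q K (𝔏.under (𝓞 K)) hndvd
  have h3 := tower (K := K) 𝔏
  rw [h1, h2, pow_zero, one_mul, one_mul] at h3
  exact h3.symm

/-- Relative ramification index of a prime above `ℓ ≠ q`. -/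
theorem ramIdx_of_ne (hqp : q ≠ p) (𝔏 : Ideal (𝓞 M)) [𝔏.IsPrime] (ℓ : ℕ) [Fact ℓ.Prime]
    [𝔏.LiesOver (Ideal.span {(ℓ : ℤ)})] (hℓ : ℓ ≠ q) : 𝔏.ramificationIdx (𝓞 K) = 1 := by
  have : IsCyclotomicExtension {p * q} ℚ M := isCyclotomicExtension_mul K M hqp
  have : 𝔏.LiesOver (𝔏.under (𝓞 K)) := Ideal.over_under 𝔏
  have : (𝔏.under (𝓞 K)).IsPrime := Ideal.IsPrime.under (𝓞 K) 𝔏
  have : (𝔏.under (𝓞 K)).LiesOver (Ideal.span {(ℓ : ℤ)}) :=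
    Ideal.LiesOver.tower_bot 𝔏 (𝔏.under (𝓞 K)) (Ideal.span {(ℓ : ℤ)})
  have hq : q.Prime := Fact.out
  have hp : p.Prime := Fact.out
  have hl : ℓ.Prime := Fact.out
  have h3 := tower (K := K) 𝔏
  by_cases hℓp : ℓ = p
  · subst hℓp
    have hndvd : ¬ ℓ ∣ q := fun h => hℓ ((Nat.prime_dvd_prime_iff_eq hl hq).mp h)
    have h1 : 𝔏.ramificationIdx ℤ = ℓ ^ 0 * (ℓ - 1) :=
      IsCyclotomicExtension.Rat.ramificationIdx_eq (ℓ * q) (m := q) (p := ℓ) (k := 0) M 𝔏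
        (by ring) hndvd
    have h2 : (𝔏.under (𝓞 K)).ramificationIdx ℤ = ℓ - 1 :=
      IsCyclotomicExtension.Rat.ramificationIdx_eq_of_prime ℓ K (𝔏.under (𝓞 K))
    rw [h1, h2, pow_zero, one_mul] at h3
    have hpos : 0 < ℓ - 1 := Nat.sub_pos_of_lt hl.one_lt
    exact (Nat.eq_of_mul_eq_mul_left hpos (by rw [mul_one]; exact h3)).symm
  · have : NeZero (p * q) := ⟨Nat.mul_ne_zero hp.ne_zero hq.ne_zero⟩
    have hndvd : ¬ ℓ ∣ p * q := by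
      intro h
      rcases (Nat.Prime.dvd_mul hl).mp h with h | h
      · exact hℓp ((Nat.prime_dvd_prime_iff_eq hl hp).mp h)
      · exact hℓ ((Nat.prime_dvd_prime_iff_eq hl hq).mp h)
    have h1 : 𝔏.ramificationIdx ℤ = 1 :=
      IsCyclotomicExtension.Rat.ramificationIdx_eq_of_not_dvd (m := p * q) ℓ M 𝔏 hndvd
    rw [h1] at h3
    exact Nat.eq_one_of_mul_eq_one_left h3.symm

/-- The rational prime below a nonzero prime of `𝓞 M`. -/
theorem exists_prime_below {F : Type*} [Field F] [NumberField F] (𝔏 : Ideal (𝓞 F))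
    [𝔏.IsPrime] (h0 : 𝔏 ≠ ⊥) :
    ∃ ℓ : ℕ, ℓ.Prime ∧ 𝔏.LiesOver (Ideal.span {(ℓ : ℤ)}) := by
  have : NeZero 𝔏 := ⟨h0⟩
  exact ⟨_, Nat.absNorm_under_prime 𝔏, Int.liesOver_span_absNorm 𝔏⟩

end RamAux

/-- `M/K` is totally ramified at the primes above `q`. -/
theorem ramificationIdx_of_mem (hqp : q ≠ p) (𝔏 : Ideal (𝓞 M)) (h𝔏 : 𝔏.IsPrime)
    (hq : ((q : ℕ) : 𝓞 M) ∈ 𝔏) : 𝔏.ramificationIdx (𝓞 K) = q - 1 := by
  have hqprime : q.Prime := Fact.out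
  have h0 : 𝔏 ≠ ⊥ := by
    rintro rfl
    rw [Ideal.mem_bot] at hq
    exact hqprime.ne_zero (by exact_mod_cast hq)
  obtain ⟨ℓ, hℓ, hlies⟩ := RamAux.exists_prime_below 𝔏 h0
  have hdvd : ℓ ∣ q := (RamAux.natCast_mem_iff 𝔏 ℓ q).mp hq
  obtain rfl : ℓ = q := (Nat.prime_dvd_prime_iff_eq hℓ hqprime).mp hdvd
  exact RamAux.ramIdx_of_eq hqp 𝔏

/-- `M/K` is unramified at the primes not above `q`. -/
theorem ramificationIdx_of_not_mem (hqp : q ≠ p) (𝔏 : Ideal (𝓞 M)) (h𝔏 : 𝔏.IsPrime)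
    (h0 : 𝔏 ≠ ⊥) (hq : ((q : ℕ) : 𝓞 M) ∉ 𝔏) : 𝔏.ramificationIdx (𝓞 K) = 1 := by
  obtain ⟨ℓ, hℓ, hlies⟩ := RamAux.exists_prime_below 𝔏 h0
  have : Fact ℓ.Prime := ⟨hℓ⟩
  have hne : ℓ ≠ q := by
    rintro rfl
    exact hq ((RamAux.natCast_mem_iff 𝔏 ℓ ℓ).mpr dvd_rfl)
  exact RamAux.ramIdx_of_ne hqp 𝔏 ℓ hne

/-- Multiplicity of a prime `𝔏` of `M` in the extension of a principal ideal of `K`. -/
theorem count_map_span (𝔏 : Ideal (𝓞 M)) (h𝔏 : 𝔏.IsPrime) (h0 : 𝔏 ≠ ⊥) (y : 𝓞 K) (hy : y ≠ 0) :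
    Multiset.count 𝔏 (normalizedFactors (Ideal.span {algebraMap (𝓞 K) (𝓞 M) y})) =
      𝔏.ramificationIdx (𝓞 K) *
        Multiset.count (𝔏.under (𝓞 K)) (normalizedFactors (Ideal.span {y})) := by
  have : 𝔏.LiesOver (𝔏.under (𝓞 K)) := Ideal.over_under 𝔏
  have : (𝔏.under (𝓞 K)).IsPrime := Ideal.IsPrime.under (𝓞 K) 𝔏
  have hu0 : 𝔏.under (𝓞 K) ≠ ⊥ := Ideal.under_ne_bot (𝓞 K) h0
  have hirr𝔏 : Irreducible 𝔏 := (Ideal.prime_of_isPrime h0 h𝔏).irreducible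
  have hirru : Irreducible (𝔏.under (𝓞 K)) :=
    (Ideal.prime_of_isPrime hu0 inferInstance).irreducible
  have hI : Ideal.span {y} ≠ (⊥ : Ideal (𝓞 K)) := by simpa using hy
  have hy' : algebraMap (𝓞 K) (𝓞 M) y ≠ 0 := by
    rw [Ne, FaithfulSMul.algebraMap_eq_zero_iff]
    exact hy
  have hI' : Ideal.span {algebraMap (𝓞 K) (𝓞 M) y} ≠ (⊥ : Ideal (𝓞 M)) := by simpa using hy'
  have hmain := Ideal.IsDedekindDomain.emultiplicity_map_eq_ramificationIdx'_mul (S := 𝓞 M)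
    hI hirru hirr𝔏 h0
  rw [Ideal.map_span, Set.image_singleton, emultiplicity_eq_count_normalizedFactors hirr𝔏 hI',
    emultiplicity_eq_count_normalizedFactors hirru hI, normalize_eq, normalize_eq,
    Ideal.ramificationIdx'_eq_ramificationIdx _ _ hu0] at hmain
  exact_mod_cast hmain

end Fermat.Agent.S14.Thaine.Rel
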