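import Fermat.Agent.S14.Thaine.Rel.FieldM

/-!
# Route T, block `Rel`: ramification indices of `M = K(ζ_q)` over `K = ℚ(ζ_p)` (alternative proof)

Same three statements as `Rel/Ram.lean`, proved without the tower over `ℤ` for `M`:
the ramification index is the order of the inertia group of `M/K`.

* away from `q` the inertia group is trivial (two distinct `q`-th roots of unity are not
  congruent modulo a prime not containing `q`);
* above `q`: `(1 - η)^(q-1) ∣ q` and `q` is unramified in `K`, so `e ≥ q - 1 = [M : K]`.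
-/

set_option autoImplicit false

namespace Fermat.Agent.S14.Thaine.Rel.RamAlt

open NumberField UniqueFactorizationMonoid IsDedekindDomain
open scoped Pointwise

namespace RamAltAux

/-- Two distinct `q`-th roots of unity which are congruent modulo an ideal `P`: then `q ∈ P`. -/
theorem natCast_mem_of_sub_mem {R : Type*} [CommRing R] [IsDomain R] {q : ℕ} [hq : Fact q.Prime]
    (P : Ideal R) {x y : R} (hx : x ^ q = 1) (hy : y ^ q = 1) (hxy : x ≠ y) (h : x - y ∈ P) :
    ((q : ℕ) : R) ∈ P := by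
  have hq1 : q - 1 + 1 = q := Nat.sub_add_cancel hq.out.one_le
  have hyy : y ^ (q - 1) * y = 1 := by rw [← pow_succ, hq1, hy]
  have hξq : (x * y ^ (q - 1)) ^ q = 1 := by
    rw [mul_pow, ← pow_mul, mul_comm (q - 1) q, pow_mul, hx, hy, one_pow, one_mul]
  have hξ1 : x * y ^ (q - 1) ≠ 1 := by
    intro h1
    apply hxy
    calc x = x * (y ^ (q - 1) * y) := by rw [hyy, mul_one]
      _ = (x * y ^ (q - 1)) * y := by ring
      _ = y := by rw [h1, one_mul]
  have hprim : IsPrimitiveRoot (x * y ^ (q - 1)) (q - 1 + 1) := by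
    rw [hq1]
    exact IsPrimitiveRoot.iff_orderOf.mpr (orderOf_eq_prime hξq hξ1)
  have hprod := hprim.prod_one_sub_pow_eq_order
  have hmem : (1 - x * y ^ (q - 1)) ∈ P := by
    have h2 : 1 - x * y ^ (q - 1) = -((x - y) * y ^ (q - 1)) := by
      calc 1 - x * y ^ (q - 1) = y ^ (q - 1) * y - x * y ^ (q - 1) := by rw [hyy]
        _ = -((x - y) * y ^ (q - 1)) := by ring
    rw [h2]
    exact P.neg_mem (P.mul_mem_right _ h)
  have h0 : 0 ∈ Finset.range (q - 1) :=
    Finset.mem_range.mpr (by have := hq.out.two_le; omega)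
  have hdvd : (1 - x * y ^ (q - 1)) ∣
      ∏ k ∈ Finset.range (q - 1), (1 - (x * y ^ (q - 1)) ^ (k + 1)) := by
    have h3 := Finset.dvd_prod_of_mem (fun k => 1 - (x * y ^ (q - 1)) ^ (k + 1)) h0
    simpa using h3
  rw [hprod] at hdvd
  have h4 : ((q : ℕ) : R) = ((q - 1 : ℕ) : R) + 1 := by
    rw [← Nat.cast_succ, Nat.succ_eq_add_one, hq1]
  rw [h4]
  obtain ⟨c, hc⟩ := hdvd
  rw [hc]
  exact P.mul_mem_right _ hmem

/-- If `q ∈ P` (`P` prime) and `η ^ q = 1`, then `η ≡ 1` modulo `P`. -/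
theorem sub_one_mem_of_natCast_mem {R : Type*} [CommRing R] {q : ℕ} [hq : Fact q.Prime]
    (P : Ideal R) [hP : P.IsPrime] {η : R} (hη : η ^ q = 1) (h : ((q : ℕ) : R) ∈ P) :
    η - 1 ∈ P := by
  obtain ⟨r, hr⟩ := exists_add_pow_prime_eq hq.out (η - 1) 1
  rw [sub_add_cancel, hη, one_pow] at hr
  have h1 : (η - 1) ^ q = -((q : R) * ((η - 1) * 1 * r)) := by linear_combination -hr
  refine hP.mem_of_pow_mem q ?_
  rw [h1]
  exact P.neg_mem (P.mul_mem_right _ h)

/-- An automorphism of a cyclotomic extension fixing a primitive root is trivial. -/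
theorem algEquiv_eq_one {K M : Type*} [Field K] [Field M] [Algebra K M] {q : ℕ} [NeZero q]
    [IsCyclotomicExtension {q} K M] {η : M} (hη : IsPrimitiveRoot η q) (σ : M ≃ₐ[K] M)
    (h : σ η = η) : σ = 1 := by
  have htop := IsCyclotomicExtension.adjoin_primitive_root_eq_top (A := K) hη
  have h1 : (σ : M →ₐ[K] M) = AlgHom.id K M := by
    refine AlgHom.ext_of_adjoin_eq_top htop ?_
    intro x hx
    rw [Set.mem_singleton_iff] at hx
    subst hx
    simpa using h
  ext x
  exact DFunLike.congr_fun h1 x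

end RamAltAux

variable {p : ℕ} [Fact p.Prime] {K : Type*} [Field K] [NumberField K]
  [IsCyclotomicExtension {p} ℚ K] {q : ℕ} [Fact q.Prime]
  {M : Type*} [Field M] [NumberField M] [Algebra K M] [IsCyclotomicExtension {q} K M]

/-- `M/K` is totally ramified at the primes above `q`. -/
theorem ramificationIdx_of_mem (hqp : q ≠ p) (𝔏 : Ideal (𝓞 M)) (h𝔏 : 𝔏.IsPrime)
    (hq : ((q : ℕ) : 𝓞 M) ∈ 𝔏) : 𝔏.ramificationIdx (𝓞 K) = q - 1 := by
  have hqprime : q.Prime := Fact.out
  have hpprime : p.Prime := Fact.out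
  have : IsGalois K M := IsCyclotomicExtension.isGalois {q} K M
  have h0 : 𝔏 ≠ ⊥ := by
    rintro rfl
    rw [Ideal.mem_bot] at hq
    exact hqprime.ne_zero (by exact_mod_cast hq)
  let w : HeightOneSpectrum (𝓞 M) := ⟨𝔏, h𝔏, h0⟩
  let v : HeightOneSpectrum (𝓞 K) := ⟨𝔏.under (𝓞 K), inferInstance, Ideal.under_ne_bot _ h0⟩
  have : w.asIdeal.LiesOver v.asIdeal := (inferInstance : 𝔏.LiesOver (𝔏.under (𝓞 K)))
  have h1 : v.asIdeal.ramificationIdx' w.asIdeal = w.asIdeal.ramificationIdx (𝓞 K) :=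
    Ideal.ramificationIdx'_eq_ramificationIdx v.asIdeal w.asIdeal v.ne_bot
  have h2 : v.asIdeal.ramificationIdxIn (𝓞 M) = w.asIdeal.ramificationIdx (𝓞 K) :=
    Ideal.ramificationIdxIn_eq_ramificationIdx v.asIdeal w.asIdeal (M ≃ₐ[K] M)
  have h3 : Nat.card (w.asIdeal.inertia (M ≃ₐ[K] M)) = v.asIdeal.ramificationIdxIn (𝓞 M) :=
    Ideal.card_inertia_eq_ramificationIdxIn v.asIdeal w.asIdeal
  -- upper bound: the inertia group is a subgroup of the Galois group
  have hle : w.asIdeal.ramificationIdx (𝓞 K) ≤ q - 1 := by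
    rw [← h2, ← h3]
    have hinj := (IsCyclotomicExtension.zeta_spec q K M).autToPow_injective K
    have hc : Nat.card (M ≃ₐ[K] M) ≤ Nat.card (ZMod q)ˣ :=
      Nat.card_le_card_of_injective _ hinj
    rw [Nat.card_eq_fintype_card (α := (ZMod q)ˣ), ZMod.card_units] at hc
    exact le_trans (Subgroup.card_le_card_group _) hc
  -- lower bound: valuations of `q`
  have hge : q - 1 ≤ w.asIdeal.ramificationIdx (𝓞 K) := by
    have hqK : ((q : ℕ) : 𝓞 K) ∈ v.asIdeal := by
      show ((q : ℕ) : 𝓞 K) ∈ 𝔏.under (𝓞 K)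
      rw [Ideal.under_def, Ideal.mem_comap, map_natCast]
      exact hq
    have hvq : v.intValuation ((q : ℕ) : 𝓞 K) = WithZero.exp (-1 : ℤ) := by
      have hqZ : Prime (q : ℤ) := Nat.prime_iff_prime_int.mp hqprime
      have hmax : (Ideal.span {(q : ℤ)}).IsMaximal :=
        PrincipalIdealRing.isMaximal_of_irreducible hqZ.irreducible
      let u : HeightOneSpectrum ℤ :=
        ⟨Ideal.span {(q : ℤ)}, hmax.isPrime, by simpa using hqprime.ne_zero⟩
      have hlo : v.asIdeal.LiesOver (Ideal.span {(q : ℤ)}) := by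
        rw [Ideal.liesOver_iff]
        refine hmax.eq_of_le (Ideal.IsPrime.ne_top inferInstance) ?_
        rw [Ideal.span_singleton_le_iff_mem, Ideal.under_def, Ideal.mem_comap]
        simpa using hqK
      have : v.asIdeal.LiesOver u.asIdeal := hlo
      have he : u.asIdeal.ramificationIdx' v.asIdeal = 1 := by
        rw [Ideal.ramificationIdx'_eq_ramificationIdx u.asIdeal v.asIdeal u.ne_bot]
        exact IsCyclotomicExtension.Rat.ramificationIdx_eq_of_not_dvd q K v.asIdeal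
          (fun h => hqp ((Nat.prime_dvd_prime_iff_eq hqprime hpprime).mp h))
      have hu := HeightOneSpectrum.intValuation_liesOver u v (q : ℤ)
      rw [he, pow_one, HeightOneSpectrum.intValuation_singleton u
        (by exact_mod_cast hqprime.ne_zero) rfl] at hu
      rw [hu]
      simp
    have hη := IsCyclotomicExtension.zeta_spec q K M
    have hηq : hη.toInteger ^ q = 1 := hη.toInteger_isPrimitiveRoot.pow_eq_one
    have hmem : hη.toInteger - 1 ∈ 𝔏 := RamAltAux.sub_one_mem_of_natCast_mem 𝔏 hηq hq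
    have hwq : w.intValuation ((q : ℕ) : 𝓞 M) ≤ WithZero.exp (-((q - 1 : ℕ) : ℤ)) := by
      rw [HeightOneSpectrum.intValuation_le_pow_iff_mem]
      obtain ⟨z, -, hz⟩ := hη.toInteger_isPrimitiveRoot.self_sub_one_pow_dvd_order (k := q - 1)
        (Nat.sub_lt hqprime.pos one_pos)
      rw [hz]
      exact Ideal.mul_mem_left _ _ (Ideal.pow_mem_pow hmem _)
    have hlie := HeightOneSpectrum.intValuation_liesOver v w ((q : ℕ) : 𝓞 K)
    rw [map_natCast (algebraMap (𝓞 K) (𝓞 M)), hvq, h1, ← WithZero.exp_nsmul] at hlie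
    rw [← hlie, WithZero.exp_le_exp] at hwq
    have h5 : ((q - 1 : ℕ) : ℤ) ≤ (w.asIdeal.ramificationIdx (𝓞 K) : ℤ) := by
      simpa using hwq
    exact_mod_cast h5
  exact le_antisymm hle hge

/-- `M/K` is unramified at the primes not above `q`. -/
theorem ramificationIdx_of_not_mem (hqp : q ≠ p) (𝔏 : Ideal (𝓞 M)) (h𝔏 : 𝔏.IsPrime)
    (h0 : 𝔏 ≠ ⊥) (hq : ((q : ℕ) : 𝓞 M) ∉ 𝔏) : 𝔏.ramificationIdx (𝓞 K) = 1 := by
  have : IsGalois K M := IsCyclotomicExtension.isGalois {q} K M
  let w : HeightOneSpectrum (𝓞 M) := ⟨𝔏, h𝔏, h0⟩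
  let v : HeightOneSpectrum (𝓞 K) := ⟨𝔏.under (𝓞 K), inferInstance, Ideal.under_ne_bot _ h0⟩
  have : w.asIdeal.LiesOver v.asIdeal := (inferInstance : 𝔏.LiesOver (𝔏.under (𝓞 K)))
  have h2 : v.asIdeal.ramificationIdxIn (𝓞 M) = w.asIdeal.ramificationIdx (𝓞 K) :=
    Ideal.ramificationIdxIn_eq_ramificationIdx v.asIdeal w.asIdeal (M ≃ₐ[K] M)
  have h3 : Nat.card (w.asIdeal.inertia (M ≃ₐ[K] M)) = v.asIdeal.ramificationIdxIn (𝓞 M) :=
    Ideal.card_inertia_eq_ramificationIdxIn v.asIdeal w.asIdeal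
  have h4 : w.asIdeal.inertia (M ≃ₐ[K] M) = ⊥ := by
    rw [Subgroup.eq_bot_iff_forall]
    intro σ hσ
    have hη := IsCyclotomicExtension.zeta_spec q K M
    have h1 : σ • hη.toInteger - hη.toInteger ∈ 𝔏 := hσ hη.toInteger
    have hηq : hη.toInteger ^ q = 1 := hη.toInteger_isPrimitiveRoot.pow_eq_one
    by_contra hne
    have hση : σ • hη.toInteger ≠ hη.toInteger := by
      intro heq
      apply hne
      refine RamAltAux.algEquiv_eq_one hη σ ?_
      exact congrArg (fun x : 𝓞 M => (x : M)) heq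
    refine hq (RamAltAux.natCast_mem_of_sub_mem 𝔏 ?_ hηq hση h1)
    rw [← smul_pow', hηq, smul_one]
  show w.asIdeal.ramificationIdx (𝓞 K) = 1
  rw [← h2, ← h3, h4]
  exact Subgroup.card_bot

/-- Multiplicity of a prime `𝔏` of `M` in the extension of a principal ideal of `K`. -/
theorem count_map_span (𝔏 : Ideal (𝓞 M)) (h𝔏 : 𝔏.IsPrime) (h0 : 𝔏 ≠ ⊥) (y : 𝓞 K) (hy : y ≠ 0) :
    Multiset.count 𝔏 (normalizedFactors (Ideal.span {algebraMap (𝓞 K) (𝓞 M) y})) =
      𝔏.ramificationIdx (𝓞 K) *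
        Multiset.count (𝔏.under (𝓞 K)) (normalizedFactors (Ideal.span {y})) := by
  let w : HeightOneSpectrum (𝓞 M) := ⟨𝔏, h𝔏, h0⟩
  let v : HeightOneSpectrum (𝓞 K) := ⟨𝔏.under (𝓞 K), inferInstance, Ideal.under_ne_bot _ h0⟩
  have : w.asIdeal.LiesOver v.asIdeal := (inferInstance : 𝔏.LiesOver (𝔏.under (𝓞 K)))
  have hI : Ideal.span {y} ≠ (⊥ : Ideal (𝓞 K)) := by simpa using hy
  have hI' : Ideal.span {algebraMap (𝓞 K) (𝓞 M) y} ≠ (⊥ : Ideal (𝓞 M)) := by simpa using hy
  have h1 := Ideal.IsDedekindDomain.emultiplicity_map_eq_ramificationIdx'_mul hI v.irreducible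
    w.irreducible w.ne_bot
  rw [Ideal.map_span, Set.image_singleton,
    emultiplicity_eq_count_normalizedFactors w.irreducible hI',
    emultiplicity_eq_count_normalizedFactors v.irreducible hI,
    Ideal.ramificationIdx'_eq_ramificationIdx _ _ v.ne_bot, normalize_eq, normalize_eq] at h1
  exact_mod_cast h1

end Fermat.Agent.S14.Thaine.Rel.RamAlt
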